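import Fermat.Statements.S07
import Fermat.Prelude.Thm_ModularForm_sturm_bound_Gamma0
import Fermat.Prelude.Thm_CongruenceSubgroup_one_mem_strictPeriods_Gamma0

set_option autoImplicit false
open WeierstrassCurve WeierstrassCurve.Affine WeierstrassCurve.Affine.Point
open CuspForm ModularFormClass UpperHalfPlane
open ModularForm

namespace Fermat.Agent.S07

open scoped MatrixGroups

/-- Inverses of coset representatives for `Gamma0 2` in `SL(2, ℤ)`. -/
def rep : Fin 3 → SL(2, ℤ)
  | 0 => 1
  | 1 => ⟨!![0, 1; -1, 0], by simp [Matrix.det_fin_two]⟩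
  | 2 => ⟨!![1, 0; -1, 1], by simp [Matrix.det_fin_two]⟩

theorem exists_rep (g : SL(2, ℤ)) : ∃ i : Fin 3, rep i * g ∈ CongruenceSubgroup.Gamma0 2 := by
  by_cases hc : (2 : ℤ) ∣ g 1 0
  · refine ⟨0, ?_⟩
    simp only [rep, one_mul, CongruenceSubgroup.Gamma0_mem]
    exact (ZMod.intCast_zmod_eq_zero_iff_dvd _ 2).2 hc
  · by_cases ha : (2 : ℤ) ∣ g 0 0
    · refine ⟨1, ?_⟩
      rw [CongruenceSubgroup.Gamma0_mem]
      have : (rep 1 * g) 1 0 = - g 0 0 := by
        rw [Matrix.SpecialLinearGroup.coe_mul, Matrix.mul_apply, Fin.sum_univ_two]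
        simp [rep]
      rw [this]
      exact (ZMod.intCast_zmod_eq_zero_iff_dvd _ 2).2 ((dvd_neg).2 ha)
    · refine ⟨2, ?_⟩
      rw [CongruenceSubgroup.Gamma0_mem]
      have : (rep 2 * g) 1 0 = - g 0 0 + g 1 0 := by
        rw [Matrix.SpecialLinearGroup.coe_mul, Matrix.mul_apply, Fin.sum_univ_two]
        simp [rep]
      rw [this]
      refine (ZMod.intCast_zmod_eq_zero_iff_dvd _ 2).2 ?_
      omega

theorem Gamma0_two_index_le : (CongruenceSubgroup.Gamma0 2).index ≤ 3 := by
  have hsurj : Function.Surjective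
      (fun i : Fin 3 =>
        (QuotientGroup.mk (rep i)⁻¹ : SL(2, ℤ) ⧸ CongruenceSubgroup.Gamma0 2)) := by
    intro x
    induction x using QuotientGroup.induction_on with
    | H g =>
      obtain ⟨i, hi⟩ := exists_rep g
      exact ⟨i, QuotientGroup.eq.2 (by simpa using hi)⟩
  have := Nat.card_le_card_of_surjective _ hsurj
  simpa [Subgroup.index] using this

theorem result (f : CuspForm (CongruenceSubgroup.Gamma0 2) 2) : f = 0 := by
  have hF : (ModularFormClass.modularForm f : ModularForm (CongruenceSubgroup.Gamma0 2) 2) = 0 := by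
    apply ModularForm.sturm_bound_Gamma0 2
    intro n hn
    have hidx := Gamma0_two_index_le
    have hn0 : n = 0 := by
      have : ((2 : ℤ) * (((CongruenceSubgroup.Gamma0 2).index : ℕ) : ℤ)).toNat / 12 = 0 := by
        omega
      omega
    subst hn0
    exact CuspFormClass.qExpansion_coeff_zero f one_pos
      (CongruenceSubgroup.one_mem_strictPeriods_Gamma0 2)
  ext z
  have := congrArg (fun F : ModularForm (CongruenceSubgroup.Gamma0 2) 2 => F z) hF
  simpa using this

end Fermat.Agent.S07
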