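import Fermat.Statements.S10
import Fermat.Agent.FLTSmall.Main

set_option autoImplicit false
open WeierstrassCurve WeierstrassCurve.Affine WeierstrassCurve.Affine.Point
open CuspForm ModularFormClass UpperHalfPlane
open FreyPackage

namespace Fermat.Agent.S10

theorem result (P : FreyPackage) (hp : P.p = 5 ∨ P.p = 7 ∨ P.p = 13) : ¬ HasGaloisStableCofixedLine (K := AlgebraicClosure ℚ) ℚ P.freyCurve P.p := by
  intro _
  have h := P.hFLT
  have hc : IsCoprime P.a P.b := (gcd_isUnit_iff _ _).mp (by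
    rw [P.hgcdab]; exact isUnit_one)
  rcases hp with hp | hp | hp
  · rw [hp] at h
    exact Fermat.Agent.FLTSmall.flt_five hc P.ha0 P.hb0 P.hc0 h
  · rw [hp] at h
    exact Fermat.Agent.FLTSmall.flt_seven hc P.ha0 P.hb0 P.hc0 h
  · rw [hp] at h
    exact Fermat.Agent.FLTSmall.flt_thirteen hc P.ha0 P.hb0 P.hc0 h

end Fermat.Agent.S10
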