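import Fermat.Statements.S13
import Fermat.Agent.S13.Main

set_option autoImplicit false
open WeierstrassCurve WeierstrassCurve.Affine WeierstrassCurve.Affine.Point
open CuspForm ModularFormClass UpperHalfPlane
open FreyPackage

namespace Fermat.Agent.S13

theorem result (P : FreyPackage) (hred : ¬ GaloisRepIsIrreducible (K := AlgebraicClosure ℚ) ℚ P.freyCurve P.p) : HasGaloisStableCofixedLine (K := AlgebraicClosure ℚ) ℚ P.freyCurve P.p := by
  have hpK : ((P.p : ℕ) : AlgebraicClosure ℚ) ≠ 0 := by exact_mod_cast P.hp0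
  have hnt := Fermat.Agent.DivPoly.torsionBy_nontrivial (P.freyCurve⁄(AlgebraicClosure ℚ))
    (frey_Δ_ne_zero P) P.hp_odd (by have := P.hp5; omega) hpK
  obtain ⟨hfin, hle⟩ := Fermat.Agent.DivPoly.torsionBy_finite (P.freyCurve⁄(AlgebraicClosure ℚ))
    P.hp_odd hpK
  have hex : ∃ N : Submodule (ZMod P.p)
      (Submodule.torsionBy ℤ (P.freyCurve⁄(AlgebraicClosure ℚ)).Point P.p),
      IsGaloisStable ℚ N ∧ N ≠ ⊥ ∧ N ≠ ⊤ := by
    by_contra hcon
    apply hred
    refine ⟨hnt, fun N hN => ?_⟩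
    by_contra h
    rw [not_or] at h
    exact hcon ⟨N, hN, h.1, h.2⟩
  obtain ⟨N, hN, h0, h1⟩ := hex
  have hfact : Fact P.p.Prime := ⟨P.pp⟩
  obtain ⟨Q, hQN, hQ0, hQgen⟩ := Fermat.Agent.S51.line_of_proper hle N h0 h1
  have hcard : Nat.card (Submodule.torsionBy ℤ (P.freyCurve⁄(AlgebraicClosure ℚ)).Point (P.p : ℤ))
      = P.p ^ 2 := by
    have hmf : Module.Finite (ZMod P.p)
      (Submodule.torsionBy ℤ (P.freyCurve⁄(AlgebraicClosure ℚ)).Point (P.p : ℤ)) :=
      Module.Finite.of_finite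
    have h := Module.natCard_eq_pow_finrank (K := ZMod P.p)
      (V := Submodule.torsionBy ℤ (P.freyCurve⁄(AlgebraicClosure ℚ)).Point (P.p : ℤ))
    rw [Nat.card_zmod] at h
    have hr : Module.finrank (ZMod P.p)
        (Submodule.torsionBy ℤ (P.freyCurve⁄(AlgebraicClosure ℚ)).Point (P.p : ℤ)) ≤ 2 := by
      rw [h] at hle
      exact (Nat.pow_le_pow_iff_right P.pp.one_lt).mp hle
    have hlt : Module.finrank (ZMod P.p) N < Module.finrank (ZMod P.p)
        (Submodule.torsionBy ℤ (P.freyCurve⁄(AlgebraicClosure ℚ)).Point (P.p : ℤ)) :=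
      Submodule.finrank_lt h1
    have hpos : Module.finrank (ZMod P.p) N ≠ 0 := by
      intro h'
      exact h0 (Submodule.finrank_eq_zero.mp h')
    have h2 : Module.finrank (ZMod P.p)
        (Submodule.torsionBy ℤ (P.freyCurve⁄(AlgebraicClosure ℚ)).Point (P.p : ℤ)) = 2 := by omega
    rw [h, h2]
  have hQ0' : (Q : (P.freyCurve⁄(AlgebraicClosure ℚ)).Point) ≠ 0 := fun h => hQ0 (Subtype.ext h)
  have hQp : P.p • (Q : (P.freyCurve⁄(AlgebraicClosure ℚ)).Point) = 0 := (mem_Tp P).mp Q.2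
  have hst : ∀ σ : AlgebraicClosure ℚ ≃ₐ[ℚ] AlgebraicClosure ℚ,
      ∀ x ∈ AddSubgroup.zmultiples (Q : (P.freyCurve⁄(AlgebraicClosure ℚ)).Point),
      σ • x ∈ AddSubgroup.zmultiples (Q : (P.freyCurve⁄(AlgebraicClosure ℚ)).Point) := by
    intro σ x hx
    obtain ⟨k, rfl⟩ := AddSubgroup.mem_zmultiples_iff.mp hx
    obtain ⟨j, -, hj⟩ := hQgen _ (hN σ Q hQN)
    have hj' : σ • (Q : (P.freyCurve⁄(AlgebraicClosure ℚ)).Point) = j • Q := congrArg Subtype.val hj
    rw [gsmul_zsmul, hj']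
    exact AddSubgroup.zsmul_mem _ (AddSubgroup.nsmul_mem _ (AddSubgroup.mem_zmultiples _) j) k
  refine ⟨N, hN, h0, h1, fun σ x => ?_⟩
  obtain ⟨k, hk⟩ := AddSubgroup.mem_zmultiples_iff.mp (core P hQ0' hQp hst hcard σ x.1 x.2)
  have : σ • x - x = k • Q := Subtype.ext hk.symm
  rw [this]
  exact zsmul_mem hQN k

end Fermat.Agent.S13
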