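import Fermat.Statements.S14
import Fermat.Agent.S14.Main
import Fermat.Agent.S14.Bridge

set_option autoImplicit false
open ExtCitation

namespace Fermat.Agent.S14

theorem result {p : ℕ} [Fact p.Prime] (h3 : 3 ≤ p) :
    ExtCitation.ExtVanishingCts p := by
  intro V _ _ _ _ C h
  by_contra hns
  have : NeZero p := ⟨(Fact.out : p.Prime).ne_zero⟩
  have hcyc : IsCyclotomicExtension {p} ℚ (CyclotomicField p ℚ) :=
    CyclotomicField.isCyclotomicExtension p ℚ
  obtain ⟨ζ, α, hζ, hα⟩ := bridge h3 V C h hns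
  exact no_bad (by omega) hζ α hα

end Fermat.Agent.S14
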