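-- Statement S20: dim S_2(Γ0(N)) = genus formula.
import Fermat.Statements.S20
import Fermat.Agent.S20.Main
import Fermat.Agent.S20.CountIndex
import Fermat.Agent.S20.CountElliptic
import Fermat.Agent.S20.CountCusps
import Fermat.Agent.IntStruct.Theta

set_option autoImplicit false
open CuspForm

namespace Fermat.Agent.S20

theorem result (N : ℕ) [NeZero N] :
    (Module.finrank ℂ (CuspForm (CongruenceSubgroup.Gamma0 N) 2) : ℚ) = ModularCurve.genusFormula N := by
  have hneg : (-1 : Matrix.SpecialLinearGroup (Fin 2) ℤ) ∈ CongruenceSubgroup.Gamma0 N := by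
    rw [CongruenceSubgroup.Gamma0_mem]
    simp
  have hmf : IsMF (CongruenceSubgroup.Gamma0 N) 4 (Fermat.Agent.IntStruct.thetaFun N) :=
    isMF_of_modularForm (Fermat.Agent.IntStruct.theta N)
  have h := finrank_cuspForm_two_eq hneg hmf
    (fun γ hγ => Fermat.Agent.IntStruct.mem_Gamma0_of_thetaFun_slash_eq (NeZero.ne N) γ hγ)
  rw [h, card_quotient_Gamma0, card_fixedBy_S, card_fixedBy_ST, card_orbits_T]
  rfl

end Fermat.Agent.S20
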