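import Fermat.Statements.S17
import Fermat.Agent.S17.Desc
import Fermat.Agent.S17.IfHT

set_option autoImplicit false
open ModularCurve AlgebraicCurve
open ModularCurve ModularCurve.JZero

namespace Fermat.Agent.S17

theorem result (N : ℕ) [NeZero N] (hN : N.Prime) (hN5 : 5 ≤ N) :
    AddGroup.FG ↥(FixedPoints.addSubgroup ((AlgebraicClosure ℚ) ≃ₐ[ℚ] (AlgebraicClosure ℚ)) (JZero N)) := by
  obtain ⟨β, C, h1, h2, h3⟩ := ht N hN hN5
  exact desc_fg β C h1 h2 h3 (wmw N hN hN5)

end Fermat.Agent.S17
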