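import Fermat.Statements.S35
import Fermat.Agent.S30
import Fermat.Agent.S35.Iota
import Fermat.Agent.S35.Glue
import Fermat.Agent.S35.ES
import Fermat.Agent.S35.New

set_option autoImplicit false
set_option autoImplicit false
open Polynomial
open CuspForm CuspForm.IsNewform

namespace Fermat.Agent.S35

theorem result
    {M : ℕ} [NeZero M] {g : CuspForm (CongruenceSubgroup.Gamma0 M) 2} (hg : g.IsNewform)
    (lam : ℕ) [Fact lam.Prime]
    (S : Finset ℕ)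
    (O' : Type) [CommRing O'] [IsDomain O'] [IsDiscreteValuationRing O']
    [IsAdicComplete (IsLocalRing.maximalIdeal O') O'] [Finite (IsLocalRing.ResidueField O')]
    [CharZero O'] (hlamO' : (lam : O') ∈ IsLocalRing.maximalIdeal O')
    (chig : CuspForm.heckeAlgebra M 2 (↑S : Set ℕ) →+* ℂ)
    (hchig : ∀ (ℓ : ℕ) (hℓ : ℓ.Prime) (hℓM : ¬ ℓ ∣ M) (hℓS : ℓ ∉ (↑S : Set ℕ)),
      chig (CuspForm.heckeAlgebra.T hℓ hℓM hℓS) = ModularFormClass.qCoeff g ℓ)
    (iota : chig.range →+* O')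
    (hlamS : lam ∈ S) (hMS : ∀ q : ℕ, q.Prime → q ∣ M → q ∈ S)
    :
    ∃ (O'' : Type) (_ : CommRing O'') (_ : IsDomain O'') (_ : IsDiscreteValuationRing O'')
      (_ : IsAdicComplete (IsLocalRing.maximalIdeal O'') O'') (_ : Finite (IsLocalRing.ResidueField O''))
      (_ : CharZero O'') (_ : Algebra O' O'') (_ : Module.Finite O' O'') (_ : IsLocalHom (algebraMap O' O'')),
      Function.Injective (algebraMap O' O'') ∧
      ∃ ρ : GaloisRepAdic O'',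
        (∀ (ℓ : ℕ) (hℓ : ℓ.Prime) (hℓM : ¬ ℓ ∣ M) (hℓS : ℓ ∉ (↑S : Set ℕ)),
          ∀ A : ValuationSubring (AlgebraicClosure ℚ), A.LiesOverPrime ℓ →
            ∀ σ : AlgebraicClosure ℚ ≃ₐ[ℚ] AlgebraicClosure ℚ, A.IsFrobeniusAt σ ℓ →
              LinearMap.charpoly (ρ.ρ σ) =
                X ^ 2 - C (algebraMap O' O'' ((iota.comp chig.rangeRestrict) (CuspForm.heckeAlgebra.T hℓ hℓM hℓS))) * X
                  + C ((ℓ : O''))) ∧
        (∀ q : ℕ, q.Prime → q ≠ lam → q ∣ M → ¬ q ^ 2 ∣ M →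
          ∀ A : ValuationSubring (AlgebraicClosure ℚ), A.LiesOverPrime q →
            ∀ σ : AlgebraicClosure ℚ ≃ₐ[ℚ] AlgebraicClosure ℚ, A.IsFrobeniusAt σ q →
              LinearMap.charpoly (ρ.ρ σ) = X ^ 2 - C ((q : O'') + 1) * X + C ((q : O'')) ∨
              LinearMap.charpoly (ρ.ρ σ) = X ^ 2 + C ((q : O'') + 1) * X + C ((q : O''))) := by
  obtain ⟨O'', i1, i2, i3, i4, i5, i6, i7, i8, i9, hinj, ρ, h1, -⟩ :=
    Fermat.Agent.S30.result lam M S hlamS hMS O' hlamO' (iota.comp chig.rangeRestrict)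
  refine ⟨O'', i1, i2, i3, i4, i5, i6, i7, i8, i9, hinj, ρ, h1, ?_⟩
  intro q hq hqlam hqM hq2 A hA σ hσ
  obtain ⟨M', hM⟩ := hqM
  have hM'0 : NeZero M' := ⟨fun h0 => NeZero.ne M (by rw [hM, h0, mul_zero])⟩
  have hqM' : ¬ q ∣ M' := fun ⟨k, hk⟩ => hq2 ⟨k, by rw [hM, hk]; ring⟩
  obtain ⟨P, hP, hP'⟩ := exists_poly_of_isNewform hg S hMS chig hchig q M' hq hM
  have hlam'' : (lam : O'') ∈ IsLocalRing.maximalIdeal O'' := by
    have e : algebraMap O' O'' (lam : O') ∈ IsLocalRing.maximalIdeal O'' :=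
      map_nonunit (algebraMap O' O'') _ hlamO'
    rwa [map_natCast] at e
  have hne : ((algebraMap O' O'').comp (iota.comp chig.rangeRestrict)) (ev M (↑S : Set ℕ) P) ≠ 0 :=
    fun h0 => iota_ne_zero chig iota _ hP' (hinj (h0.trans (map_zero _).symm))
  have hρ : ∀ (ℓ : ℕ) (hℓ : ℓ.Prime) (hℓN : ¬ ℓ ∣ M) (hℓS : ℓ ∉ (↑S : Set ℕ)),
      ∀ A : ValuationSubring (AlgebraicClosure ℚ), A.LiesOverPrime ℓ →
        ∀ σ : AlgebraicClosure ℚ ≃ₐ[ℚ] AlgebraicClosure ℚ, A.IsFrobeniusAt σ ℓ →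
        LinearMap.charpoly (ρ.ρ σ) =
          X ^ 2 - C (((algebraMap O' O'').comp (iota.comp chig.rangeRestrict))
            (CuspForm.heckeAlgebra.T hℓ hℓN hℓS)) * X + C ((ℓ : O'')) := h1
  exact charpoly_frob_of_ES (Fact.out : lam.Prime) hlam'' hlamS hMS
    (esInterfaceF Fact.out hlamS hMS) ((algebraMap O' O'').comp (iota.comp chig.rangeRestrict))
    ρ hρ q M' hq hM hqM' hqlam P hP hne A hA σ hσ

end Fermat.Agent.S35
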