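import Fermat.Statements.S41
import Fermat.Agent.S41.Coh
import Fermat.Agent.S41.IfTop

set_option autoImplicit false
open WeierstrassCurve WeierstrassCurve.Affine WeierstrassCurve.Affine.Point
open scoped CongruenceSubgroup
open WeierstrassCurve

namespace Fermat.Agent.S41

theorem result
    (E : WeierstrassCurve ℚ) [E.IsElliptic] {W : WeierstrassCurve ℤ} (hW : W.IsIntegralModelOf E)
    {p N q' : ℕ} (hp : p.Prime) (hp2 : p ≠ 2) (hN : 0 < N) (hq' : q'.Prime) (hq'N : ¬ q' ∣ N) (hq'p : q' ≠ p)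
    (hirr : GaloisRepIsIrreducible (K := AlgebraicClosure ℚ) ℚ E p)
    (f : CuspForm (CongruenceSubgroup.Gamma0 N) 2) (𝔪 : Ideal (integralClosure ℤ ℂ))
    (hf : f.IsNormalizedEigenform) (hmax : 𝔪.IsMaximal) (hpm : (p : integralClosure ℤ ℂ) ∈ 𝔪)
    (hcong : ∀ ℓ : ℕ, ℓ.Prime → W.IsGoodPrimeFor ℓ → ¬ ℓ ∣ N → ℓ ≠ p →
      ∃ a : integralClosure ℤ ℂ, (a : ℂ) = ModularFormClass.qCoeff f ℓ ∧
        a - ((W.apOfModel ℓ : ℤ) : integralClosure ℤ ℂ) ∈ 𝔪)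
    (hLR : ∃ a : integralClosure ℤ ℂ, (a : ℂ) = ModularFormClass.qCoeff f q' ∧
      a ^ 2 - ((q' : integralClosure ℤ ℂ) + 1) ^ 2 ∈ 𝔪) :
    ∃ (g : CuspForm (CongruenceSubgroup.Gamma0 (N * q')) 2) (𝔪' : Ideal (integralClosure ℤ ℂ)),
      g.IsNormalizedEigenform ∧ 𝔪'.IsMaximal ∧ (p : integralClosure ℤ ℂ) ∈ 𝔪' ∧
      (∀ ℓ : ℕ, ℓ.Prime → W.IsGoodPrimeFor ℓ → ¬ ℓ ∣ N * q' → ℓ ≠ p →
        ∃ a : integralClosure ℤ ℂ, (a : ℂ) = ModularFormClass.qCoeff g ℓ ∧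
          a - ((W.apOfModel ℓ : ℤ) : integralClosure ℤ ℂ) ∈ 𝔪') ∧
      g.IsNewAt q' := by
  have : Fact p.Prime := ⟨hp⟩
  have : NeZero N := ⟨hN.ne'⟩
  have : NeZero (N * q') := ⟨Nat.mul_ne_zero hN.ne' hq'.ne_zero⟩
  obtain ⟨x₀, e, he, hx₀, hT, hTq⟩ := top_in (W := W) hp hq' hq'N f 𝔪 hf hmax hpm hcong hLR
  obtain ⟨ℓ₀, hℓ₀, hg, hB, hℓp, hne⟩ :=
    eis2 E hW hp hp2 hirr (N * q') (Nat.mul_ne_zero hN.ne' hq'.ne_zero)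
  obtain ⟨y, hy, hU, hTy⟩ := coh hp2 hq' hq'N (fun ℓ => W.IsGoodPrimeFor ℓ ∧ ℓ ≠ p)
    (fun ℓ => W.apOfModel ℓ) x₀ e he hx₀ (fun ℓ hℓ hN' h => hT ℓ hℓ hN' h.1 h.2) hTq ℓ₀ hℓ₀ hB
    ⟨hg, hℓp⟩ hne
  exact top_out (W := W) hp hq' (Dvd.intro_left N rfl) y hy hU
    (fun ℓ hℓ hM h1 h2 => hTy ℓ hℓ hM ⟨h1, h2⟩)

end Fermat.Agent.S41
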