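import Fermat.Statements.S49
-- import your own Fermat.Agent.* helpers here
import Fermat.Prelude.Def_FLTPrelim_ModularRep
import Fermat.Agent.S49.Abstract
import Fermat.Agent.S49.Hecke
import Fermat.Agent.S49.Normalize
import Fermat.Agent.S49.Congruence

set_option autoImplicit false
open CuspForm EisensteinWeightOne CongruenceSubgroup ModularFormClass
open FLT FLT.AbstractIntegralStructure

namespace Fermat.Agent.S49

theorem result
    {N : ℕ} [NeZero N] (h : CuspForm.HasIntegralBasis N) {a : ℕ → ℤ}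
    (heig : FormalHecke.IsEigensystem
      (fun ℓ => if ℓ ∣ N then 0 else ((chiNegThree ℓ : ℤ) : ℤ)) a)
    (hreal : CuspForm.IsLatticeRealized N a) :
    ∃ (f : CuspForm (Gamma0 N) 2) (_ : f.IsNormalizedEigenform)
      (𝔪' : Ideal (integralClosure ℤ ℂ)), 𝔪'.IsMaximal ∧
      ((3 : ℕ) : integralClosure ℤ ℂ) ∈ 𝔪' ∧
      ∀ (ℓ : ℕ) (_ : ℓ.Prime) (_ : ¬ ℓ ∣ N),
        ∃ c : integralClosure ℤ ℂ, (c : ℂ) = ModularFormClass.qCoeff f ℓ ∧
          c - (a ℓ : integralClosure ℤ ℂ) ∈ 𝔪' := by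
  classical
  have hfd := finiteDimensional_of_hasIntegralBasis h
  obtain ⟨f₀, -, af, haf, hcong₀⟩ := hreal
  obtain ⟨ha1, harel⟩ := heig
  obtain ⟨𝔪, h𝔪max, h3𝔪⟩ := FLTPrelim.exists_maximalIdeal_natCast_prime_mem Nat.prime_three
  -- `af n ≡ a n mod 3`
  have hcong : ∀ n, (3 : ℤ) ∣ af n - a n := by
    intro n
    have := dvd_add (hcong₀ n) (three_dvd_bridgeProduct_coeff_sub a n)
    simpa using this
  -- integers divisible by `3` lie in `𝔪`
  have hint𝔪 : ∀ z : ℤ, (3 : ℤ) ∣ z → (z : integralClosure ℤ ℂ) ∈ 𝔪 := by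
    rintro _ ⟨w, rfl⟩
    push_cast
    apply Ideal.mul_mem_right
    simpa using h3𝔪
  set J := congruenceIdeal 𝔪 f₀ with hJ
  have hJne : J ≠ ⊤ := by
    intro htop
    have h1 : (1 : bigHecke N) ∈ J := by rw [htop]; exact Submodule.mem_top
    rw [hJ, mem_congruenceIdeal] at h1
    obtain ⟨c, hc, hc'⟩ := h1 1
    have hc1 : c = ((af 1 : ℤ) : integralClosure ℤ ℂ) := by
      apply Subtype.ext
      rw [hc']
      simp only [OneMemClass.coe_one, Module.End.one_apply]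
      rw [← haf 1]
      simp
    have h2 : ((af 1 - a 1 : ℤ) : integralClosure ℤ ℂ) ∈ 𝔪 := hint𝔪 _ (hcong 1)
    rw [ha1] at h2
    apply h𝔪max.ne_top
    rw [Ideal.eq_top_iff_one]
    have h3 : (1 : integralClosure ℤ ℂ) = c - ((af 1 - 1 : ℤ) : integralClosure ℤ ℂ) := by
      rw [hc1]; push_cast; ring
    rw [h3]
    exact 𝔪.sub_mem hc h2
  obtain ⟨M, hMmax, hJM⟩ := Ideal.exists_le_maximal J hJne
  have hMprime : M.IsPrime := hMmax.isPrime
  -- the contraction of `M` to the algebraic integers is `𝔪`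
  have hcomap : 𝔪 = M.comap (algebraMap (integralClosure ℤ ℂ) (bigHecke N)) := by
    apply h𝔪max.eq_of_le (Ideal.comap_ne_top _ hMprime.ne_top)
    intro c hc
    apply hJM
    rw [hJ, mem_congruenceIdeal]
    intro n
    refine ⟨c * ((af n : ℤ) : integralClosure ℤ ℂ), 𝔪.mul_mem_right _ hc, ?_⟩
    change _ = qCoeff ⇑((c : ℂ) • f₀) n
    rw [qCoeff_smul, ← haf n]
    simp
  obtain ⟨g, hg0, hg⟩ := exists_common_eigenvector (K := ℂ) (V := CuspForm (Gamma0 N) 2)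
    (A := bigHecke N) (algebraMap (integralClosure ℤ ℂ) ℂ) (bigHecke N).val.toRingHom
    (algebraMap (integralClosure ℤ ℂ) (bigHecke N)) (fun c => rfl) M
    (fun t ht => by
      have : t = 0 := Subtype.ext ht
      rw [this]; exact M.zero_mem)
  have key : ∀ ℓ : ℕ, ∃ μ : integralClosure ℤ ℂ, ℓ.Prime →
      (∀ (hℓ : ℓ.Prime) (hℓN : ¬ ℓ ∣ N), CuspForm.heckeTLin 2 hℓ hℓN g = (μ : ℂ) • g ∧
        μ - (a ℓ : integralClosure ℤ ℂ) ∈ 𝔪) ∧
      (∀ hℓN : ℓ ∣ N, CuspForm.heckeULin 2 hℓN g = (μ : ℂ) • g) := by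
    intro ℓ
    by_cases hℓ : ℓ.Prime
    · by_cases hℓN : ℓ ∣ N
      · have hmem : CuspForm.heckeULin 2 hℓN ∈ bigHecke N :=
          Algebra.subset_adjoin (CuspForm.heckeULin_mem_heckeGenerators hℓ hℓN (Set.notMem_empty _))
        obtain ⟨μ, hμ, -⟩ := hg ⟨_, hmem⟩ (fun ν hν =>
          ⟨⟨ν, isIntegral_eigenvalue_heckeULin h hℓ hℓN hν⟩, rfl⟩)
        exact ⟨μ, fun _ => ⟨fun _ hℓN' => absurd hℓN hℓN', fun _ => hμ⟩⟩
      · have hmem : CuspForm.heckeTLin 2 hℓ hℓN ∈ bigHecke N :=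
          Algebra.subset_adjoin (CuspForm.heckeTLin_mem_heckeGenerators hℓ hℓN (Set.notMem_empty _))
        obtain ⟨μ, hμ, hμM⟩ := hg ⟨_, hmem⟩ (fun ν hν =>
          ⟨⟨ν, isIntegral_eigenvalue_heckeTLin h hℓ hℓN hν⟩, rfl⟩)
        refine ⟨μ, fun _ => ⟨fun _ _ => ⟨hμ, ?_⟩, fun hℓN' => absurd hℓN' hℓN⟩⟩
        -- the congruence
        have hTJ : (⟨_, hmem⟩ : bigHecke N) -
            algebraMap (integralClosure ℤ ℂ) (bigHecke N) (a ℓ : integralClosure ℤ ℂ) ∈ J := by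
          rw [hJ, mem_congruenceIdeal]
          intro n
          have hz : (3 : ℤ) ∣ af (n * ℓ) + (if ℓ ∣ n then (ℓ : ℤ) * af (n / ℓ) else 0)
              - a ℓ * af n := by
            obtain ⟨k1, hk1⟩ := hcong (n * ℓ)
            obtain ⟨k2, hk2⟩ := hcong (n / ℓ)
            obtain ⟨k3, hk3⟩ := hcong n
            obtain ⟨k4, hk4⟩ := three_dvd_natCast_sub_chiNegThree ℓ
            have r := harel ℓ hℓ n
            simp only [if_neg hℓN] at r
            rw [mul_comm ℓ n] at r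
            by_cases hd : ℓ ∣ n
            · simp only [if_pos hd] at r ⊢
              exact ⟨k1 + (ℓ : ℤ) * k2 + k4 * a (n / ℓ) - a ℓ * k3, by
                linear_combination hk1 + (ℓ : ℤ) * hk2 + a (n / ℓ) * hk4 - a ℓ * hk3 + r⟩
            · simp only [if_neg hd] at r ⊢
              exact ⟨k1 - a ℓ * k3, by linear_combination hk1 - a ℓ * hk3 + r⟩
          refine ⟨_, hint𝔪 _ hz, ?_⟩
          change _ = qCoeff ⇑(CuspForm.heckeTLin 2 hℓ hℓN f₀ -
            (((a ℓ : ℤ) : integralClosure ℤ ℂ) : ℂ) • f₀) n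
          rw [sub_eq_add_neg (CuspForm.heckeTLin 2 hℓ hℓN f₀), ← neg_smul, qCoeff_add, qCoeff_smul,
            qCoeff_heckeTLin, ← haf, ← haf, ← haf]
          by_cases hd : ℓ ∣ n
          · simp only [if_pos hd]
            push_cast
            norm_num
            ring
          · simp only [if_neg hd]
            push_cast
            ring
        have h2 := M.sub_mem (hJM hTJ) hμM
        rw [sub_sub_sub_cancel_left, ← map_sub] at h2
        rw [hcomap]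
        exact h2
    · exact ⟨0, fun h => absurd h hℓ⟩
  choose μ hμ using key
  obtain ⟨f, hf, hfμ⟩ := exists_normalizedEigenform_of_eigenvector g hg0 (fun ℓ => (μ ℓ : ℂ))
    (fun ℓ hℓ hℓN => ((hμ ℓ hℓ).1 hℓ hℓN).1) (fun ℓ hℓ hℓN => (hμ ℓ hℓ).2 hℓN)
  refine ⟨f, hf, 𝔪, h𝔪max, h3𝔪, fun ℓ hℓ hℓN => ⟨μ ℓ, (hfμ ℓ hℓ).symm, ((hμ ℓ hℓ).1 hℓ hℓN).2⟩⟩

end Fermat.Agent.S49
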