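import Fermat.Statements.S57
import Fermat.Agent.S57.Via
import Fermat.Agent.S57.PowerSeriesRegular
import Fermat.Agent.S57.Descent

set_option autoImplicit false
open Algebra Algebra.PatchingLevel

namespace Fermat.Agent.S57

open RingTheory.Sequence IsLocalRing in
theorem free_N
    {𝒪 : Type} [CommRing 𝒪] [IsDomain 𝒪] [IsDiscreteValuationRing 𝒪]
    {r : ℕ} {R : Type} [CommRing R] [Algebra 𝒪 R]
    {M : Type} [AddCommGroup M] [Module R M] [Nontrivial M]
    (L : Algebra.PatchingLevel 𝒪 r R M ⊥) :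
    Module.Free (MvPowerSeries (Fin r) 𝒪) L.N := by
  obtain ⟨ϖ, hϖ⟩ := IsDiscreteValuationRing.exists_irreducible 𝒪
  have hw : IsWeaklyRegular 𝒪 ([ϖ] : List 𝒪) :=
    (isWeaklyRegular_singleton_iff 𝒪 ϖ).mpr
      (Module.Flat.isSMulRegular_of_nonZeroDivisors (mem_nonZeroDivisors_of_ne_zero hϖ.ne_zero))
  obtain ⟨h1, h2⟩ := varList_spec 𝒪 r ([ϖ] : List 𝒪) hw
  have hmax : Ideal.ofList (varList 𝒪 r ([ϖ] : List 𝒪)) = maximalIdeal (MvPowerSeries (Fin r) 𝒪) := by
    rw [h2, Ideal.ofList_singleton, ← hϖ.maximalIdeal_eq]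
    ext f
    simp [mem_maximalIdeal, mem_nonunits_iff, MvPowerSeries.isUnit_iff_constantCoeff]
  have hreg : IsRegular (MvPowerSeries (Fin r) 𝒪) (varList 𝒪 r ([ϖ] : List 𝒪)) := by
    refine IsRegular.of_isWeaklyRegular_of_mem_maximalIdeal _ ?_ h1
    intro x hx
    rw [← hmax]
    exact Ideal.subset_span hx
  have hR : Nontrivial R := by
    by_contra h
    rw [not_nontrivial_iff_subsingleton] at h
    have : Subsingleton M := Module.subsingleton R M
    exact not_subsingleton M this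
  have hloc : ∀ s ∈ varList 𝒪 r ([ϖ] : List 𝒪),
      (L.φ : MvPowerSeries (Fin r) 𝒪 →+* MvPowerSeries (Fin r) 𝒪) s ∈
        maximalIdeal (MvPowerSeries (Fin r) 𝒪) := by
    intro s hs
    simp only [varList, List.mem_append, List.mem_ofFn, List.map_cons, List.map_nil,
      List.mem_singleton] at hs
    rcases hs with ⟨i, rfl⟩ | rfl
    · rw [mem_maximalIdeal, mem_nonunits_iff]
      intro hu
      have := hu.map L.ψ
      simp only [RingHom.coe_coe] at this
      rw [L.ψ_φ_X i] at this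
      exact not_isUnit_zero this
    · have h3 : (L.φ : MvPowerSeries (Fin r) 𝒪 →+* MvPowerSeries (Fin r) 𝒪) (MvPowerSeries.C ϖ) =
          MvPowerSeries.C ϖ := L.φ.commutes ϖ
      rw [h3, ← hmax]
      refine Ideal.subset_span ?_
      simp [varList]
  exact free_via (L.φ : MvPowerSeries (Fin r) 𝒪 →+* MvPowerSeries (Fin r) 𝒪) L.b L.b_span
    (fun c hc i => by simpa using (L.b_rel c).mp hc i) _ h1 hmax _ hreg hmax rfl hloc

theorem result
    {𝒪 : Type} [CommRing 𝒪] [IsDomain 𝒪] [IsDiscreteValuationRing 𝒪]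
    {r : ℕ} {R : Type} [CommRing R] [Algebra 𝒪 R]
    {M : Type} [AddCommGroup M] [Module R M] [Nontrivial M]
    (L : Algebra.PatchingLevel 𝒪 r R M ⊥) :
    Module.Free R M ∧ Module.annihilator R M = ⊥ ∧
      RingHom.ker L.ψ = Ideal.span (Set.range fun i : Fin r => L.φ (MvPowerSeries.X i)) := by
  have := free_N L
  refine descent (L.ψ : MvPowerSeries (Fin r) 𝒪 →+* R) L.ψ_surjective L.π L.π_smul L.π_surjective
    _ ?_ L.ker_π
  rw [Ideal.span_le]
  rintro _ ⟨i, rfl⟩
  exact L.ψ_φ_X i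

end Fermat.Agent.S57
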